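/-
S16 (Eisenstein ideal index), UPPER, backup route of the consumers (helper46).
Formal core of the "NORM-ORDER" argument: pure power-series algebra, Mathlib only.

Setting: `V` a subring of `ℂ` with `(l : ℂ)⁻¹ ∉ V`, `l` prime; `EZ : ℤ⟦X⟧` with constant coefficient
`1` and `l ∤ coeff 1 EZ` (the integral `q`-expansion of `E₄` or `E₆`); `g`, `u` power series with
constant coefficient `1` and all higher coefficients in `l • V` (the expansions of `G` and `U_p G`);
`y` the `q`-expansion of the level-one norm, given through the bridge identity `hy`.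
Modulo `l` the norm is `((-p)^r - EZ) (1 - EZ)^p`, of order `p` or `p + 1` with unit leading
coefficient; a Sturm bound `B < p` for `y` is therefore contradictory.
-/
import Mathlib

set_option autoImplicit false

open PowerSeries

noncomputable section

namespace Fermat.Agent.S16.H46

/-! ### Generalities on power series -/

section General

variable {R S : Type*} [CommRing R] [CommRing S]

lemma map_rescale' (f : R →+* S) (a : R) (φ : PowerSeries R) :
    PowerSeries.map f (rescale a φ) = rescale (f a) (PowerSeries.map f φ) := by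
  ext n
  simp [coeff_rescale]

lemma rescale_expand_of_pow_eq_one {p : ℕ} (hp : p ≠ 0) {a : R} (ha : a ^ p = 1)
    (φ : PowerSeries R) : rescale a (expand p hp φ) = expand p hp φ := by
  ext n
  rw [coeff_rescale, coeff_expand]
  split_ifs with h
  · obtain ⟨m, rfl⟩ := h
    rw [pow_mul, ha, one_pow, one_mul]
  · rw [mul_zero]

lemma expand_injective' {p : ℕ} (hp : p ≠ 0) {φ ψ : PowerSeries R}
    (h : expand p hp φ = expand p hp ψ) : φ = ψ := by
  ext n
  have := congrArg (coeff (p * n)) h
  rwa [coeff_expand_mul, coeff_expand_mul] at this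

/-- A power series over `ℤ` with constant coefficient `1`: `1 - E = X * A`. -/
def shiftNeg (E : PowerSeries ℤ) : PowerSeries ℤ := PowerSeries.mk fun n => -coeff (n + 1) E

lemma one_sub_eq_X_mul_shiftNeg {E : PowerSeries ℤ} (hE : constantCoeff E = 1) :
    1 - E = X * shiftNeg E := by
  ext n
  rcases n with _ | n
  · simp [hE]
  · rw [coeff_succ_X_mul, shiftNeg, coeff_mk, map_sub, coeff_one, if_neg (Nat.succ_ne_zero n),
      zero_sub]

lemma constantCoeff_shiftNeg (E : PowerSeries ℤ) : constantCoeff (shiftNeg E) = -coeff 1 E := by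
  rw [← coeff_zero_eq_constantCoeff_apply, shiftNeg, coeff_mk]

/-- The integral model of the norm modulo `l`. -/
def normModel (E : PowerSeries ℤ) (c : ℤ) (p : ℕ) : PowerSeries ℤ := (C c - E) * (1 - E) ^ p

lemma normModel_eq {E : PowerSeries ℤ} (hE : constantCoeff E = 1) (c : ℤ) (p : ℕ) :
    normModel E c p = X ^ p * ((C c - E) * shiftNeg E ^ p) := by
  rw [normModel, one_sub_eq_X_mul_shiftNeg hE, mul_pow]
  ring

lemma coeff_normModel_of_lt {E : PowerSeries ℤ} (hE : constantCoeff E = 1) (c : ℤ) {p n : ℕ}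
    (h : n < p) : coeff n (normModel E c p) = 0 := by
  rw [normModel_eq hE, coeff_X_pow_mul', if_neg (by omega)]

lemma coeff_normModel_self {E : PowerSeries ℤ} (hE : constantCoeff E = 1) (c : ℤ) (p : ℕ) :
    coeff p (normModel E c p) = (c - 1) * (-coeff 1 E) ^ p := by
  rw [normModel_eq hE, coeff_X_pow_mul', if_pos le_rfl, Nat.sub_self, coeff_zero_eq_constantCoeff_apply,
    map_mul, map_pow, constantCoeff_shiftNeg, map_sub, hE, constantCoeff_C]

lemma coeff_normModel_succ {E : PowerSeries ℤ} (hE : constantCoeff E = 1) (c : ℤ) (p : ℕ) :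
    coeff (p + 1) (normModel E c p) =
      (c - 1) * coeff 1 (shiftNeg E ^ p) + (-coeff 1 E) ^ (p + 1) := by
  rw [normModel_eq hE, coeff_X_pow_mul', if_pos (by omega), Nat.add_sub_cancel_left, coeff_mul,
    Finset.Nat.antidiagonal_succ, Finset.sum_cons, Finset.Nat.antidiagonal_zero]
  simp only [Finset.map_singleton, Finset.sum_singleton, Function.Embedding.prodMap,
    Function.Embedding.coeFn_mk, Prod.map, Function.Embedding.refl_apply, Nat.succ_eq_add_one,
    zero_add, coeff_zero_eq_constantCoeff_apply, map_sub, hE, map_pow,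
    constantCoeff_shiftNeg, coeff_C, one_ne_zero, if_false, if_true]
  ring

/-- Arithmetic conclusion: `l` cannot divide both the `p`-th and the `(p+1)`-st coefficient. -/
lemma not_dvd_coeff_normModel {E : PowerSeries ℤ} (hE : constantCoeff E = 1) (c : ℤ) (p : ℕ)
    {l : ℕ} (hl : l.Prime) (ha : ¬ (l : ℤ) ∣ coeff 1 E)
    (h1 : (l : ℤ) ∣ coeff p (normModel E c p)) (h2 : (l : ℤ) ∣ coeff (p + 1) (normModel E c p)) :
    False := by
  have hlp : Prime (l : ℤ) := Nat.prime_iff_prime_int.mp hl
  rw [coeff_normModel_self hE] at h1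
  rw [coeff_normModel_succ hE] at h2
  have hna : ∀ k : ℕ, ¬ (l : ℤ) ∣ (-coeff 1 E) ^ k := fun k hk =>
    ha ((dvd_neg).mp (hlp.dvd_of_dvd_pow hk))
  have hc : (l : ℤ) ∣ c - 1 := (hlp.dvd_or_dvd h1).resolve_right (hna p)
  exact hna (p + 1) ((dvd_add_right (hc.mul_right _)).mp h2)

lemma map_map_intCast (f : R →+* S) (E : PowerSeries ℤ) :
    PowerSeries.map f (PowerSeries.map (Int.castRingHom R) E) =
      PowerSeries.map (Int.castRingHom S) E := by
  ext n
  simp

end General

/-! ### Subrings of `ℂ` in which `l` is not invertible -/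

section Subring

variable (V : Subring ℂ)

/-- Lift of a power series with coefficients in `V`. -/
def liftV (f : PowerSeries ℂ) (hf : ∀ n, coeff n f ∈ V) : PowerSeries ↥V :=
  PowerSeries.mk fun n => ⟨coeff n f, hf n⟩

@[simp] lemma coeff_liftV (f : PowerSeries ℂ) (hf : ∀ n, coeff n f ∈ V) (n : ℕ) :
    ((coeff n (liftV V f hf) : ↥V) : ℂ) = coeff n f := by
  rw [liftV, coeff_mk]

@[simp] lemma map_liftV (f : PowerSeries ℂ) (hf : ∀ n, coeff n f ∈ V) :
    PowerSeries.map V.subtype (liftV V f hf) = f := by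
  ext n
  rw [coeff_map, Subring.subtype_apply, coeff_liftV]

lemma map_subtype_injective : Function.Injective (PowerSeries.map V.subtype) := by
  intro φ ψ h
  ext n
  have := congrArg (coeff n) h
  rw [coeff_map, coeff_map] at this
  exact congrArg Subtype.val (Subtype.ext this)

/-- An integer prime to `l` is nonzero in `V / l V` as soon as `l⁻¹ ∉ V`. -/
lemma intCast_quotient_ne_zero {l : ℕ} (hl : l.Prime) (hV : (l : ℂ)⁻¹ ∉ V) {x : ℤ}
    (hx : ¬ (l : ℤ) ∣ x) : ((x : ℤ) : ↥V ⧸ Ideal.span {(l : ↥V)}) ≠ 0 := by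
  intro h
  have h' : Ideal.Quotient.mk (Ideal.span {(l : ↥V)}) (x : ↥V) = 0 := by
    rw [map_intCast]; exact h
  rw [Ideal.Quotient.eq_zero_iff_mem, Ideal.mem_span_singleton'] at h'
  obtain ⟨v, hv⟩ := h'
  have hv' : (v : ℂ) * (l : ℂ) = (x : ℂ) := by
    have := congrArg Subtype.val hv
    simpa using this
  have hcop : IsCoprime (l : ℤ) x :=
    ((Nat.prime_iff_prime_int.mp hl).irreducible.coprime_iff_not_dvd).mpr hx
  obtain ⟨a, b, hab⟩ := hcop
  have hab' : (a : ℂ) * (l : ℂ) + (b : ℂ) * (x : ℂ) = 1 := by exact_mod_cast hab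
  have hl0 : (l : ℂ) ≠ 0 := by exact_mod_cast hl.ne_zero
  have hinv : (l : ℂ)⁻¹ = (a : ℂ) + (b : ℂ) * (v : ℂ) := by
    rw [inv_eq_iff_eq_inv, eq_comm]
    apply inv_eq_of_mul_eq_one_left
    linear_combination hab' + (b : ℂ) * hv'
  apply hV
  rw [hinv]
  exact V.add_mem (intCast_mem V a) (V.mul_mem (intCast_mem V b) v.2)

/-- **NORM-ORDER, formal core.**  `g`, `u` are `≡ 1` modulo `l V`; `y` is given by the norm bridge
`hy` (the `∞`-translate is `c g^r - E`, the other `p` translates are `u^r(ζ^j t) - E(t^p)`);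
a Sturm bound `B < p` for `y` modulo `l V` is contradictory. -/
theorem norm_order_core {l p r : ℕ} (hl : l.Prime) (hp : p ≠ 0) (hV : (l : ℂ)⁻¹ ∉ V)
    (EZ : PowerSeries ℤ) (hE0 : constantCoeff EZ = 1) (hE1 : ¬ (l : ℤ) ∣ coeff 1 EZ)
    (g u y : PowerSeries ℂ) (ζ : ℂ) (hζV : ζ ∈ V) (hζ : ζ ^ p = 1)
    (hg0 : coeff 0 g = 1) (hg : ∀ n, 0 < n → ∃ h ∈ V, coeff n g = l * h)
    (hu0 : coeff 0 u = 1) (hu : ∀ n, 0 < n → ∃ h ∈ V, coeff n u = l * h)
    (c : ℤ)
    (hy : expand p hp y =
      expand p hp (C (c : ℂ) * g ^ r - EZ.map (Int.castRingHom ℂ)) *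
        ∏ j ∈ Finset.range p,
          rescale (ζ ^ j) (u ^ r - expand p hp (EZ.map (Int.castRingHom ℂ))))
    (B : ℕ) (hB : B < p)
    (hSturm : (∀ n ≤ B, ∃ h ∈ V, coeff n y = l * h) → ∀ n, ∃ h ∈ V, coeff n y = l * h) :
    False := by
  classical
  set I : Ideal ↥V := Ideal.span {(l : ↥V)} with hI
  set π : ↥V →+* ↥V ⧸ I := Ideal.Quotient.mk I with hπ
  have hlI : (l : ↥V) ∈ I := Ideal.subset_span rfl
  -- integrality of `g`, `u`
  have hone : ∀ (f : PowerSeries ℂ), coeff 0 f = 1 →
      (∀ n, 0 < n → ∃ h ∈ V, coeff n f = l * h) → ∀ n, coeff n f ∈ V := by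
    intro f h0 h n
    rcases Nat.eq_zero_or_pos n with rfl | hn
    · rw [h0]; exact V.one_mem
    · obtain ⟨h', hh', e⟩ := h n hn
      rw [e]; exact V.mul_mem (natCast_mem V l) hh'
  have hred : ∀ (f : PowerSeries ℂ) (h0 : coeff 0 f = 1)
      (h : ∀ n, 0 < n → ∃ h ∈ V, coeff n f = l * h),
      PowerSeries.map π (liftV V f (hone f h0 h)) = 1 := by
    intro f h0 h
    ext n
    rw [coeff_map, coeff_one]
    split_ifs with hn
    · subst hn
      have : coeff 0 (liftV V f (hone f h0 h)) = 1 := Subtype.ext (by rw [coeff_liftV, h0]; rfl)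
      rw [this, map_one]
    · obtain ⟨h', hh', e⟩ := h n (Nat.pos_of_ne_zero hn)
      have : coeff n (liftV V f (hone f h0 h)) = (l : ↥V) * ⟨h', hh'⟩ :=
        Subtype.ext (by rw [coeff_liftV, e]; rfl)
      rw [this, hπ, Ideal.Quotient.eq_zero_iff_mem]
      exact Ideal.mul_mem_right _ _ hlI
  set gV := liftV V g (hone g hg0 hg) with hgV
  set uV := liftV V u (hone u hu0 hu) with huV
  set eV : PowerSeries ↥V := EZ.map (Int.castRingHom ↥V) with heV
  set ζV : ↥V := ⟨ζ, hζV⟩ with hζV'
  set RV : PowerSeries ↥V := expand p hp (C (c : ↥V) * gV ^ r - eV) *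
      ∏ j ∈ Finset.range p, rescale (ζV ^ j) (uV ^ r - expand p hp eV) with hRV
  have hRV' : PowerSeries.map V.subtype RV = expand p hp y := by
    rw [hy, hRV]
    simp only [map_mul, map_prod, map_expand, map_sub, map_pow, map_rescale', hgV, huV, map_liftV,
      heV, map_map_intCast, map_intCast]
    rfl
  -- integrality of `y`
  have hyV : ∀ n, coeff n y ∈ V := by
    intro n
    have := congrArg (coeff (p * n)) hRV'
    rw [coeff_map, coeff_expand_mul] at this
    rw [← this]
    exact Subtype.mem _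
  set yV := liftV V y hyV with hyV'
  have hyR : expand p hp yV = RV :=
    map_subtype_injective V (by rw [map_expand, hyV', map_liftV, hRV'])
  -- reduction modulo `l`
  have hζp : (π ζV) ^ p = 1 := by
    rw [← map_pow]
    have : ζV ^ p = 1 := Subtype.ext (by rw [hζV']; simpa using hζ)
    rw [this, map_one]
  have hresc : ∀ j : ℕ, rescale (π ζV ^ j)
      (expand p hp (PowerSeries.map (Int.castRingHom (↥V ⧸ I)) EZ)) =
        expand p hp (PowerSeries.map (Int.castRingHom (↥V ⧸ I)) EZ) := fun j =>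
    rescale_expand_of_pow_eq_one hp (by rw [← pow_mul, mul_comm, pow_mul, hζp, one_pow]) _
  have hW : PowerSeries.map π yV =
      PowerSeries.map (Int.castRingHom (↥V ⧸ I)) (normModel EZ c p) := by
    apply expand_injective' hp
    rw [← map_expand, hyR, hRV]
    simp only [map_mul, map_prod, map_expand, map_sub, map_pow, map_rescale', hgV, huV,
      hred g hg0 hg, hred u hu0 hu, heV, map_map_intCast, map_intCast,
      map_one, one_pow, mul_one]
    simp only [hresc, Finset.prod_const, Finset.card_range]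
    have hC : (C c : PowerSeries ℤ) = (c : PowerSeries ℤ) := eq_intCast _ c
    rw [normModel, hC]
    simp only [map_mul, map_sub, map_pow, map_one, map_intCast]
  have key : ∀ n, (∃ h ∈ V, coeff n y = l * h) ↔
      ((coeff n (normModel EZ c p) : ℤ) : ↥V ⧸ I) = 0 := by
    intro n
    have h1 : π (coeff n yV) = ((coeff n (normModel EZ c p) : ℤ) : ↥V ⧸ I) := by
      have := congrArg (coeff n) hW
      rwa [coeff_map, coeff_map, eq_intCast] at this
    rw [← h1, hπ, Ideal.Quotient.eq_zero_iff_mem, hI, Ideal.mem_span_singleton']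
    constructor
    · rintro ⟨h, hh, e⟩
      refine ⟨⟨h, hh⟩, Subtype.ext ?_⟩
      rw [hyV']
      simp [e, mul_comm]
    · rintro ⟨a, ha⟩
      refine ⟨a, a.2, ?_⟩
      have := congrArg Subtype.val ha
      rw [hyV'] at this
      simp only [Subring.coe_mul, coeff_liftV, Subring.coe_natCast] at this
      rw [← this, mul_comm]
  have hall := hSturm (fun n hn => (key n).mpr (by
    rw [coeff_normModel_of_lt hE0 c (lt_of_le_of_lt hn hB), Int.cast_zero]))
  have d1 : (l : ℤ) ∣ coeff p (normModel EZ c p) := by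
    by_contra h
    exact intCast_quotient_ne_zero V hl hV h ((key p).mp (hall p))
  have d2 : (l : ℤ) ∣ coeff (p + 1) (normModel EZ c p) := by
    by_contra h
    exact intCast_quotient_ne_zero V hl hV h ((key (p + 1)).mp (hall (p + 1)))
  exact not_dvd_coeff_normModel hE0 c p hl hE1 d1 d2

end Subring

end Fermat.Agent.S16.H46
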