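/-
S16 (Eisenstein ideal index), UPPER, backup route of the consumers (helper46).

`no_form_ge_five`: for primes `p` and `l ≥ 5` (no further relation between `l` and `p`; `l = p`
allowed) there is no `G ∈ M₂(Γ₀(p))` with constant term `1` and all higher `q`-coefficients in
`l • V`, `V` a subring of `ℂ` containing the `p`-th roots of unity in which `l` is not invertible.

Proof: `Ψ = (-p G)^r - E` with `(r, E) = (2, E₄)` (`l ≥ 7`) or `(3, E₆)` (`l = 5`).  Its translates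
are `Ψ` itself and `(U_p G)^r(ζ^j t) - E(t^p)` (`H20.slash_S_eq`), all `≡ 1 - E` modulo `l`; the norm
to level one (`H90.exists_levelOne_norm`) is `≡ ((-p)^r - E)(1 - E)^p`, of order `p` or `p + 1` with
unit leading coefficient, against Sturm (`H78.coeff_mem_of_forall_le`).
-/
import Mathlib
import Fermat.Agent.S16.H46.NormOrderCore
import Fermat.Agent.S16.H20.W2
import Fermat.Agent.S16.H90.Sym
import Fermat.Agent.S16.H78.LevelOneZ
import Fermat.Agent.S28.H22.Translates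

set_option autoImplicit false

open UpperHalfPlane ModularForm CongruenceSubgroup Matrix.SpecialLinearGroup
open scoped MatrixGroups ModularForm Manifold Topology
open Fermat.Agent.S20 Fermat.Agent.S22

noncomputable section

namespace Fermat.Agent.S16.H46

/-! ### `q`-expansion calculus for nice functions -/

section Nice

variable {N : ℕ} [NeZero N] {F G : ℍ → ℂ}

lemma qExpansion_sub_of_isNice (hF : IsNice N F) (hG : IsNice N G) :
    qExpansion (N : ℝ) (F - G) = qExpansion (N : ℝ) F - qExpansion (N : ℝ) G :=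
  UpperHalfPlane.qExpansion_sub hF.analyticAt hG.analyticAt

lemma qExpansion_smul_of_isNice (hF : IsNice N F) (a : ℂ) :
    qExpansion (N : ℝ) (a • F) = a • qExpansion (N : ℝ) F :=
  UpperHalfPlane.qExpansion_smul hF.analyticAt a

omit [NeZero N] in
lemma isNice_pow (hF : IsNice N F) (n : ℕ) : IsNice N (F ^ n) := by
  induction n with
  | zero => rw [pow_zero]; exact IsNice.one
  | succ n ih => rw [pow_succ]; exact ih.mul hF

lemma qExpansion_pow_of_isNice (hF : IsNice N F) (n : ℕ) :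
    qExpansion (N : ℝ) (F ^ n) = qExpansion (N : ℝ) F ^ n := by
  induction n with
  | zero => rw [pow_zero, pow_zero, UpperHalfPlane.qExpansion_one]
  | succ n ih =>
    rw [pow_succ, pow_succ, UpperHalfPlane.qExpansion_mul (isNice_pow hF n).analyticAt hF.analyticAt,
      ih]

end Nice

/-- Slash of a power under `SL(2, ℤ)`. -/
lemma pow_slash_SL (k : ℤ) (A : SL(2, ℤ)) (f : ℍ → ℂ) (n : ℕ) :
    (f ^ n) ∣[(n : ℤ) * k] A = (f ∣[k] A) ^ n := by
  induction n with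
  | zero =>
    rw [pow_zero, pow_zero, Nat.cast_zero, zero_mul]
    exact ModularForm.is_invariant_one A
  | succ n ih =>
    have hw : ((n + 1 : ℕ) : ℤ) * k = (n : ℤ) * k + k := by push_cast; ring
    rw [pow_succ, pow_succ, hw, ModularForm.mul_slash_SL2, ih]

/-- The additive subgroup `l • V` of `ℂ`. -/
def smulSubgroup (V : Subring ℂ) (l : ℕ) : AddSubgroup ℂ where
  carrier := {z | ∃ h ∈ V, z = l * h}
  zero_mem' := ⟨0, V.zero_mem, by simp⟩
  add_mem' := by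
    rintro _ _ ⟨h, hh, rfl⟩ ⟨h', hh', rfl⟩
    exact ⟨h + h', V.add_mem hh hh', by ring⟩
  neg_mem' := by
    rintro _ ⟨h, hh, rfl⟩
    exact ⟨-h, V.neg_mem hh, by ring⟩

lemma mem_smulSubgroup {V : Subring ℂ} {l : ℕ} {z : ℂ} :
    z ∈ smulSubgroup V l ↔ ∃ h ∈ V, z = l * h := Iff.rfl

/-- **Generic NORM-ORDER consumer.** `E` a level-one form of weight `2 r` with integral
`q`-expansion `EZ`, constant term `1`, `l ∤ a₁(E)`, and `2 r (p + 1) / 12 < p`. -/
theorem no_form_of_levelOne (p : ℕ) [Fact p.Prime] {l : ℕ} (hl : l.Prime) (V : Subring ℂ)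
    (hV : (l : ℂ)⁻¹ ∉ V) (hζ : ∀ z : ℂ, z ^ p = 1 → z ∈ V)
    (r : ℕ) (E : ModularForm 𝒮ℒ ((r : ℤ) * 2)) (EZ : PowerSeries ℤ)
    (hE : qExpansion 1 E = EZ.map (Int.castRingHom ℂ))
    (hE0 : PowerSeries.constantCoeff EZ = 1) (hE1 : ¬ (l : ℤ) ∣ PowerSeries.coeff 1 EZ)
    (hB : r * 2 * (p + 1) / 12 < p)
    (G : ModularForm (Γ0 p) 2) (h0 : (qExpansion 1 G).coeff 0 = 1)
    (hG : ∀ n, 0 < n → ∃ h ∈ V, (qExpansion 1 G).coeff n = l * h) : False := by
  have hp : p.Prime := Fact.out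
  have hp0 : p ≠ 0 := hp.ne_zero
  have : NeZero p := ⟨hp0⟩
  have hpC : (p : ℂ) ≠ 0 := by exact_mod_cast hp0
  -- the form `Ψ = (-p G)^r - E`
  let Ψ : ModularForm (Γ0 p) ((r : ℤ) * 2) := ((-(p : ℂ)) • G).pow r - resLO p E
  have hΨ : (Ψ : ℍ → ℂ) = ((-(p : ℂ)) • (G : ℍ → ℂ)) ^ r - (E : ℍ → ℂ) := by
    ext τ
    simp [Ψ]
  set g := qExpansion 1 G with hg
  set u := qExpansion 1 (heckeU 2 p G) with hu
  set e := EZ.map (Int.castRingHom ℂ) with he
  -- niceness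
  have hG1 : IsNice 1 (G : ℍ → ℂ) := H20.isNice_coe 1 G
  have hEper : Function.Periodic ((E : ℍ → ℂ) ∘ ofComplex) (1 : ℝ) :=
    SlashInvariantFormClass.periodic_comp_ofComplex E one_mem_strictPeriods_SL
  have hE1' : IsNice 1 (E : ℍ → ℂ) :=
    IsNice.of_one 1 hEper E.holo' (ModularFormClass.bdd_at_infty E)
  have hEp : IsNice p (E : ℍ → ℂ) :=
    IsNice.of_one p hEper E.holo' (ModularFormClass.bdd_at_infty E)
  have hU1 : IsNice 1 (heckeU 2 p (G : ℍ → ℂ)) := H20.isNice_heckeU 1 G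
  have hUp : IsNice p ((heckeU 2 p (G : ℍ → ℂ)) ∣[(2 : ℤ)] heckeMatrix p 0) :=
    Fermat.Agent.S28.H22.isNice_slash_heckeMatrix hU1 2 hp0 0
  -- expansion at `∞`
  have hqInf : H90.qInf Ψ = PowerSeries.C ((((-(p : ℤ)) ^ r : ℤ)) : ℂ) * g ^ r - e := by
    rw [H90.qInf, hΨ]
    have h1 := qExpansion_sub_of_isNice (N := 1) (isNice_pow (hG1.smul (-(p : ℂ))) r) hE1'
    have h2 := qExpansion_pow_of_isNice (N := 1) (hG1.smul (-(p : ℂ))) r
    have h3 := qExpansion_smul_of_isNice (N := 1) hG1 (-(p : ℂ))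
    simp only [Nat.cast_one] at h1 h2 h3
    rw [h1, h2, h3, hE, PowerSeries.smul_eq_C_mul, mul_pow, ← map_pow]
    push_cast
    rfl
  -- the slash by `S`
  have hS : (Ψ : ℍ → ℂ) ∣[(r : ℤ) * 2] ModularGroup.S =
      ((p : ℂ) • ((heckeU 2 p (G : ℍ → ℂ)) ∣[(2 : ℤ)] heckeMatrix p 0)) ^ r - (E : ℍ → ℂ) := by
    rw [hΨ, sub_eq_add_neg, SlashAction.add_slash, SlashAction.neg_slash, pow_slash_SL,
      ModularForm.SL_smul_slash, H20.slash_S_eq p G, H47.levelOne_slash, ← sub_eq_add_neg]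
    congr 2
    ext τ
    simp
  -- expansion at `0`
  have hqZero : H90.qZero Ψ = u ^ r - PowerSeries.expand p hp0 e := by
    rw [H90.qZero, hS, qExpansion_sub_of_isNice (isNice_pow (hUp.smul (p : ℂ)) r) hEp,
      qExpansion_pow_of_isNice (hUp.smul (p : ℂ)), qExpansion_smul_of_isNice hUp,
      H90.qExpansion_levelOne E, hE]
    congr 2
    ext n
    rw [PowerSeries.coeff_smul,
      Fermat.Agent.S28.H22.qExpansion_slash_heckeMatrix_coeff hU1 2 hp0 0 n]
    simp [Fermat.Agent.S28.H22.zetaBD, hu, hpC]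
  -- coefficients of `u`
  have hu0 : u.coeff 0 = 1 := by
    rw [hu, H20.qExpansion_heckeU_coeff p hp0 G 0, zero_mul]; exact h0
  have hun : ∀ n, 0 < n → ∃ h ∈ V, u.coeff n = l * h := by
    intro n hn
    rw [hu, H20.qExpansion_heckeU_coeff p hp0 G n]
    exact hG (n * p) (Nat.mul_pos hn hp.pos)
  -- the norm
  obtain ⟨Nf, -, hN⟩ := H90.exists_levelOne_norm Ψ (m := ((r * 2 * (p + 1) : ℕ) : ℤ))
    (by push_cast; ring)
  rw [hqInf, hqZero] at hN
  refine norm_order_core V hl hp0 hV EZ hE0 hE1 g u (qExpansion 1 Nf) (H90.zetaP p)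
    (hζ _ (H90.zetaP_pow_self p)) (H90.zetaP_pow_self p) h0 hG hu0 hun ((-(p : ℤ)) ^ r) hN
    (r * 2 * (p + 1) / 12) hB ?_
  intro hlow n
  exact H78.coeff_mem_of_forall_le (smulSubgroup V l) Nf (fun n hn => hlow n hn) n

/-! ### The two instances -/

lemma coeff_one_E4Z : PowerSeries.coeff 1 H78.E4Z = 240 := by
  have h := ModularForm.E₄_qExpansion_coeff_one
  rw [H78.qExpansion_E4, PowerSeries.coeff_map, eq_intCast] at h
  exact_mod_cast h

lemma coeff_one_E6Z : PowerSeries.coeff 1 H78.E6Z = -504 := by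
  have h := ModularForm.E₆_qExpansion_coeff_one
  rw [H78.qExpansion_E6, PowerSeries.coeff_map, eq_intCast] at h
  exact_mod_cast h

/-- `l ≥ 7`: `Ψ = (-p G)² - E₄`. -/
theorem no_form_ge_seven (p : ℕ) [Fact p.Prime] {l : ℕ} (hl : l.Prime) (h7 : 7 ≤ l)
    (V : Subring ℂ) (hV : (l : ℂ)⁻¹ ∉ V) (hζ : ∀ z : ℂ, z ^ p = 1 → z ∈ V)
    (G : ModularForm (Γ0 p) 2) (h0 : (qExpansion 1 G).coeff 0 = 1)
    (hG : ∀ n, 0 < n → ∃ h ∈ V, (qExpansion 1 G).coeff n = l * h) : False := by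
  have hp : p.Prime := Fact.out
  have hw : (4 : ℤ) = ((2 : ℕ) : ℤ) * 2 := by norm_num
  refine no_form_of_levelOne p hl V hV hζ 2 (mcast hw E₄) H78.E4Z ?_ H78.constantCoeff_E4Z ?_ ?_
    G h0 hG
  · exact H78.qExpansion_E4
  · rw [coeff_one_E4Z]
    intro hdvd
    have h1 : l ∣ 240 := by exact_mod_cast hdvd
    have h2 : l ∣ 2 ^ 4 * 3 * 5 := by norm_num; exact h1
    rcases (Nat.Prime.dvd_mul hl).mp h2 with h3 | h3
    · rcases (Nat.Prime.dvd_mul hl).mp h3 with h4 | h4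
      · have := Nat.le_of_dvd (by norm_num) (hl.dvd_of_dvd_pow h4); omega
      · have := Nat.le_of_dvd (by norm_num) h4; omega
    · have := Nat.le_of_dvd (by norm_num) h3; omega
  · have := hp.two_le
    omega

/-- `l = 5`: `Ψ = (-p G)³ - E₆`. -/
theorem no_form_five (p : ℕ) [Fact p.Prime]
    (V : Subring ℂ) (hV : ((5 : ℕ) : ℂ)⁻¹ ∉ V) (hζ : ∀ z : ℂ, z ^ p = 1 → z ∈ V)
    (G : ModularForm (Γ0 p) 2) (h0 : (qExpansion 1 G).coeff 0 = 1)
    (hG : ∀ n, 0 < n → ∃ h ∈ V, (qExpansion 1 G).coeff n = (5 : ℕ) * h) : False := by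
  have hp : p.Prime := Fact.out
  have hw : (6 : ℤ) = ((3 : ℕ) : ℤ) * 2 := by norm_num
  refine no_form_of_levelOne p Nat.prime_five V hV hζ 3 (mcast hw E₆) H78.E6Z ?_
    H78.constantCoeff_E6Z ?_ ?_ G h0 hG
  · exact H78.qExpansion_E6
  · rw [coeff_one_E6Z]
    norm_num
  · have := hp.two_le
    omega

/-- **NOG for `l ≥ 5`**, all primes `p` (no relation between `l` and `p` is assumed; `l = p` is
allowed): no `G ∈ M₂(Γ₀(p))` with `a₀ = 1` and `aₙ ∈ l • V` for `n ≥ 1`. -/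
theorem no_form_ge_five (p : ℕ) [Fact p.Prime] {l : ℕ} (hl : l.Prime) (h5 : 5 ≤ l)
    (V : Subring ℂ) (hV : (l : ℂ)⁻¹ ∉ V) (hζ : ∀ z : ℂ, z ^ p = 1 → z ∈ V)
    (G : ModularForm (Γ0 p) 2) (h0 : (qExpansion 1 G).coeff 0 = 1)
    (hG : ∀ n, 0 < n → ∃ h ∈ V, (qExpansion 1 G).coeff n = l * h) : False := by
  rcases Nat.lt_or_ge l 7 with h | h
  · have hl5 : l = 5 := by
      have h6 : l ≠ 6 := by rintro rfl; exact absurd hl (by norm_num)
      omega
    subst hl5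
    exact no_form_five p V hV hζ G h0 hG
  · exact no_form_ge_seven p hl h V hV hζ G h0 hG

end Fermat.Agent.S16.H46
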