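/-
S16 (Eisenstein ideal index): the UPPER statement, assembled (helper46, U-N backup) from
* `H63.upper_of`  (helper63: the reduction to relation (I) and the three NOG statements),
* `H96.rel_I`     (helper96: relation (I)),
* `H46.no_form_ge_five` (NOG for `l ≥ 5`; the hypothesis `l ∣ p + 1` of class (a) is not needed),
* `H37.nog_three'`, `H37.nog_two'` (helper37: NOG for `9 ∣ p + 1`, `8 ∣ p + 1`).
-/
import Fermat.Agent.S16.H46.NoFormGeFive
import Fermat.Agent.S16.H63.UpperOf
import Fermat.Agent.S16.H96.RelI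
import Fermat.Agent.S16.H37.NogFinal

set_option autoImplicit false

open UpperHalfPlane ModularForm CongruenceSubgroup ModularCurve
open scoped MatrixGroups ModularForm

noncomputable section

namespace Fermat.Agent.S16.H46

/-- NOG, class (a), in the shape `hA` consumed by `H63.upper_of`. -/
theorem nog_ge_five' (p : ℕ) [Fact p.Prime] :
    ∀ l : ℕ, l.Prime → 5 ≤ l → l ∣ p + 1 → ∀ V : ValuationSubring ℂ,
      ((l : ℂ) ∈ V ∧ (l : ℂ)⁻¹ ∉ V) → ∀ G : ModularForm (Gamma0 p) 2,
      (qExpansion 1 G).coeff 0 = 1 →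
      (∀ n : ℕ, 0 < n → ∃ h ∈ V, (qExpansion 1 G).coeff n = l * h) → False := by
  intro l hl h5 _ V hV G h0 hG
  have hp : p.Prime := Fact.out
  exact no_form_ge_five p hl h5 V.toSubring hV.2
    (fun z hz => H63.mem_of_pow_eq_one V hp.ne_zero hz) G h0
    (fun n hn => by obtain ⟨h, hh, e⟩ := hG n hn; exact ⟨h, hh, e⟩)

/-- **UPPER** (the statement `hU` of the S16 assembly): a cusp form of weight 2 and level `p` whose
`q`-coefficients are integers congruent to `σ'(k)` modulo `m` forces `m ∣ eisensteinNumerator p`. -/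
theorem upper (p : ℕ) [Fact p.Prime] (m : ℕ) (f : CuspForm (Gamma0 p) 2)
    (hf : ∀ k : ℕ, 0 < k → ∃ a : ℤ, ModularFormClass.qCoeff f k = (a : ℂ) ∧
      (m : ℤ) ∣ a - ∑ d ∈ k.divisors.filter (fun d => ¬ p ∣ d), (d : ℤ)) :
    m ∣ eisensteinNumerator p := by
  refine H63.upper_of p ?_ (nog_ge_five' p) (H37.nog_three' p) (H37.nog_two' p) m f hf
  intro m' f' a ha hc
  refine H96.rel_I p m' f' a (fun k hk => ha k hk) (fun k hk => ?_)
  have := hc k hk
  rwa [H91.sigmaP_cast_int] at this

end Fermat.Agent.S16.H46
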